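import Fermat.Agent.ZeroFreeRegion.Inversion

/-!
# The prime number theorem with an error term

`ψ x = x + O (x exp (-c (log x) ^ (1/10)))`, from the smoothed sum by monotonicity.
-/

set_option autoImplicit false

noncomputable section

namespace FA.ZeroFree

open Finset
open scoped ArithmeticFunction.vonMangoldt Chebyshev

/-- `(log x) ^ (1/10)`. -/
def tenth (x : ℝ) : ℝ := Real.log x ^ (1 / 10 : ℝ)

/-- The first moment of `ψ`. -/
def psiOne (x : ℝ) : ℝ := ∑ n ∈ Icc 1 ⌊x⌋₊, Λ n * (x - n)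

theorem tenth_mono {x y : ℝ} (hx : 1 ≤ x) (hxy : x ≤ y) : tenth x ≤ tenth y :=
  Real.rpow_le_rpow (Real.log_nonneg hx) (Real.log_le_log (by linarith) hxy) (by norm_num)

theorem tenth_le_log {x : ℝ} (hx : 3 ≤ x) : 1 ≤ tenth x ∧ tenth x ≤ Real.log x := by
  have h : 1 ≤ Real.log x := by
    rw [Real.le_log_iff_exp_le (by linarith)]
    linarith [Real.exp_one_lt_three]
  exact ⟨Real.one_le_rpow h (by norm_num), (Real.rpow_le_rpow_of_exponent_le h
    (by norm_num : (1 / 10 : ℝ) ≤ 1)).trans (le_of_eq (Real.rpow_one _))⟩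

theorem tenth_half {x : ℝ} (hx : 4 ≤ x) : tenth x / 2 ≤ tenth (x / 2) := by
  have h0 : 0 ≤ Real.log x := Real.log_nonneg (by linarith)
  have h : Real.log x / 2 ≤ Real.log (x / 2) := by
    rw [Real.log_div (by linarith) two_ne_zero]
    have h4 : Real.log 4 ≤ Real.log x := Real.log_le_log (by norm_num) hx
    rw [show (4 : ℝ) = 2 ^ 2 by norm_num, Real.log_pow] at h4
    push_cast at h4
    linarith
  refine le_trans ?_ (Real.rpow_le_rpow (by positivity) h (by norm_num))
  rw [Real.div_rpow h0 two_pos.le, tenth]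
  exact div_le_div_of_nonneg_left (Real.rpow_nonneg h0 _) (by positivity)
    (Real.rpow_le_self_of_one_le one_le_two (by norm_num))

/-- `ψ₁ x = x² / 2 + O (x² exp (-c (log x) ^ (1/10)))`. -/
theorem exists_psiOne_le : ∃ c C, 0 < c ∧ c ≤ 1 ∧ 0 ≤ C ∧ ∀ x : ℝ, 3 ≤ x →
    |psiOne x - x ^ 2 / 2| ≤ C * x ^ 2 * Real.exp (-(c * tenth x)) := by
  obtain ⟨a, C, ha, ha1, hC, h⟩ := exists_smoothErr_le
  obtain ⟨c, hc⟩ : ∃ c, c = a / 6 ^ 9 := ⟨_, rfl⟩
  have hc0 : 0 < c := by rw [hc]; positivity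
  have hc1 : c ≤ 1 / 2 := by
    rw [hc, div_le_iff₀ (by positivity)]
    linarith [show (2 : ℝ) ≤ 6 ^ 9 by norm_num]
  refine ⟨c, 2 * C + 1, hc0, by linarith, by positivity, fun x hx => ?_⟩
  obtain ⟨hu1, hul⟩ := tenth_le_log hx
  have hx0 : 0 < x := by linarith
  obtain ⟨u, hu⟩ : ∃ u, u = tenth x := ⟨_, rfl⟩
  rw [← hu] at hu1 hul ⊢
  have hlog0 : 0 ≤ Real.log x := by linarith
  have hu10 : u ^ 10 = Real.log x := by
    rw [hu, tenth, ← Real.rpow_natCast, ← Real.rpow_mul hlog0]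
    norm_num
  obtain ⟨E, hE⟩ : ∃ E, E = Real.exp (-(c * u)) := ⟨_, rfl⟩
  rw [← hE]
  have h1 := h x (Real.exp u) hx (Real.one_le_exp (by linarith))
  have hell : ell (Real.exp u) ≤ 6 * u := by
    unfold ell
    rw [Real.log_le_iff_le_exp (by positivity), abs_of_pos (Real.exp_pos u),
      show 6 * u = u + 5 * u by ring, Real.exp_add]
    have h5 : (101 : ℝ) ≤ Real.exp (5 * u) :=
      calc (101 : ℝ) ≤ (2.7 : ℝ) ^ 5 := by norm_num
        _ ≤ Real.exp 1 ^ 5 :=
          pow_le_pow_left₀ (by norm_num) (by linarith [Real.exp_one_gt_d9]) 5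
        _ = Real.exp ((5 : ℕ) * 1) := (Real.exp_nat_mul 1 5).symm
        _ ≤ _ := Real.exp_le_exp.2 (by norm_num; linarith)
    nlinarith [Real.one_le_exp (show 0 ≤ u by linarith)]
  have e1 : x ^ (-(a / ell (Real.exp u) ^ 9)) ≤ E := by
    rw [Real.rpow_def_of_pos hx0, hE]
    refine Real.exp_le_exp.2 ?_
    have h9 : a / (6 * u) ^ 9 ≤ a / ell (Real.exp u) ^ 9 := div_le_div_of_nonneg_left ha.le
      (pow_pos (ell_pos _) 9) (pow_le_pow_left₀ (ell_pos _).le hell 9)
    have h10 := mul_le_mul_of_nonneg_left h9 hlog0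
    have : Real.log x * (a / (6 * u) ^ 9) = c * u := by
      rw [← hu10, hc]
      have : u ≠ 0 := by linarith
      field_simp
    linarith
  have e2 : Real.exp u ^ (-(1 / 2) : ℝ) ≤ E := by
    rw [← Real.exp_mul, hE]
    refine Real.exp_le_exp.2 ?_
    have := mul_le_mul_of_nonneg_right hc1 (show 0 ≤ u by linarith)
    linarith
  have hS : |smoothErr x| ≤ C * x * (2 * E) :=
    h1.trans (mul_le_mul_of_nonneg_left (by linarith) (by positivity))
  have hxE : x ≤ x ^ 2 * E := by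
    have h11 : x⁻¹ ≤ E := by
      rw [hE, ← Real.exp_log (inv_pos.2 hx0), Real.log_inv]
      refine Real.exp_le_exp.2 (neg_le_neg ?_)
      exact (mul_le_of_le_one_left (by linarith) (by linarith)).trans hul
    calc x = x ^ 2 * x⁻¹ := by field_simp
      _ ≤ _ := mul_le_mul_of_nonneg_left h11 (by positivity)
  have hsplit : psiOne x = x * smoothErr x + ∑ n ∈ Icc 1 ⌊x⌋₊, (x - n) := by
    rw [psiOne, smoothErr, mul_sum, ← sum_add_distrib]
    refine sum_congr rfl fun n _ => ?_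
    field_simp
    ring
  have hgauss : ∀ m : ℕ, ∑ n ∈ Icc 1 m, (n : ℝ) = (m : ℝ) * (m + 1) / 2 := fun m => by
    induction m with
    | zero => simp
    | succ k ih =>
      rw [sum_Icc_succ_top (by omega), ih]
      push_cast
      ring
  have hlin : |∑ n ∈ Icc 1 ⌊x⌋₊, (x - n) - x ^ 2 / 2| ≤ x := by
    rw [sum_sub_distrib, hgauss, sum_const, Nat.card_Icc, Nat.add_sub_cancel, nsmul_eq_mul,
      abs_le]
    have := Nat.floor_le hx0.le
    have := Nat.lt_floor_add_one x
    constructor <;> nlinarith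
  rw [hsplit]
  have h12 : |x * smoothErr x| ≤ x * (C * x * (2 * E)) := by
    rw [abs_mul, abs_of_pos hx0]
    exact mul_le_mul_of_nonneg_left hS hx0.le
  rw [abs_le] at hlin h12 ⊢
  constructor <;> nlinarith

/-- `ψ₁ y - ψ₁ x` between `(y - x) ψ x` and `(y - x) ψ y`. -/
theorem psiOne_sub_bounds {x y : ℝ} (hx : 0 ≤ x) (hxy : x ≤ y) :
    (y - x) * ψ x ≤ psiOne y - psiOne x ∧ psiOne y - psiOne x ≤ (y - x) * ψ y := by
  have hIcc : ∀ n : ℕ, Ioc 0 n = Icc 1 n := fun n => by ext k; simp; omega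
  have hy : 0 ≤ y := hx.trans hxy
  obtain ⟨G, hG⟩ : ∃ G : ℕ → ℝ, G = fun n => Λ n * (max (y - n) 0 - max (x - n) 0) := ⟨_, rfl⟩
  have hp : ∀ z, 0 ≤ z → z ≤ y →
      psiOne z = ∑ n ∈ Icc 1 ⌊y⌋₊, Λ n * max (z - n) 0 := by
    intro z hz hzy
    rw [psiOne, ← sum_subset (Icc_subset_Icc_right (Nat.floor_mono hzy))
      (f := fun n : ℕ => Λ n * max (z - n) 0) fun n hn hn' => ?_]
    · refine sum_congr rfl fun n hn => ?_
      rw [mem_Icc] at hn
      rw [max_eq_left (sub_nonneg.2 ((Nat.cast_le.2 hn.2).trans (Nat.floor_le hz)))]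
    · rw [mem_Icc] at hn hn'
      have : z < n := Nat.lt_of_floor_lt (by omega)
      rw [max_eq_right (by linarith), mul_zero]
  rw [hp y hy le_rfl, hp x hx hxy, ← sum_sub_distrib]
  simp_rw [← mul_sub]
  constructor
  · rw [Chebyshev.psi, hIcc, mul_sum]
    refine le_trans (le_of_eq (sum_congr rfl fun n hn => ?_))
      (sum_le_sum_of_subset_of_nonneg (Icc_subset_Icc_right (Nat.floor_mono hxy)) fun n _ _ => ?_)
    · rw [mem_Icc] at hn
      have : (n : ℝ) ≤ x := (Nat.cast_le.2 hn.2).trans (Nat.floor_le hx)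
      rw [max_eq_left (by linarith), max_eq_left (by linarith)]
      ring
    · exact mul_nonneg ArithmeticFunction.vonMangoldt_nonneg
        (sub_nonneg.2 (max_le_max_right _ (by linarith)))
  · rw [Chebyshev.psi, hIcc, mul_sum]
    refine sum_le_sum fun n hn => ?_
    rw [mem_Icc] at hn
    have : (n : ℝ) ≤ y := (Nat.cast_le.2 hn.2).trans (Nat.floor_le hy)
    rw [mul_comm (y - x)]
    refine mul_le_mul_of_nonneg_left ?_ ArithmeticFunction.vonMangoldt_nonneg
    rw [max_eq_left (by linarith : (0 : ℝ) ≤ y - n)]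
    linarith [le_max_left (x - n) 0]

/-- **The error term.** -/
theorem exists_psi_error : ∃ c C, 0 < c ∧ 0 < C ∧ ∀ x : ℝ, 2 ≤ x →
    |ψ x - x| ≤ C * x * Real.exp (-(c * tenth x)) := by
  obtain ⟨c, C, hc, hc1, hC, h⟩ := exists_psiOne_le
  obtain ⟨B, hB⟩ : ∃ B : ℝ, B = Real.log 4 + 5 := ⟨_, rfl⟩
  have hB5 : 5 ≤ B := by
    rw [hB]
    linarith [Real.log_nonneg (by norm_num : (1 : ℝ) ≤ 4)]
  have htriv : ∀ x : ℝ, 0 ≤ x → |ψ x - x| ≤ B * x := fun x hx => by
    have h1 := Chebyshev.psi_le_const_mul_self hx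
    have h2 := Chebyshev.psi_nonneg x
    have h3 : 0 ≤ Real.log 4 * x := mul_nonneg (Real.log_nonneg (by norm_num)) hx
    rw [hB, abs_le]
    constructor <;> nlinarith
  refine ⟨c / 4, 2 * B + 1 + 8 * C + B * Real.exp 2, by positivity, by positivity,
    fun x hx => ?_⟩
  have hx0 : 0 < x := by linarith
  obtain ⟨η, hη⟩ : ∃ η, η = Real.exp (-(c / 4 * tenth x)) := ⟨_, rfl⟩
  rw [← hη]
  have hη0 : 0 < η := hη ▸ Real.exp_pos _
  have hBe : 0 ≤ B * Real.exp 2 * (x * η) := by positivity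
  have hC8 : 0 ≤ 8 * C * (x * η) := by positivity
  have h2B : 0 ≤ 2 * B * (x * η) := by positivity
  rcases lt_or_ge x 6 with hx6 | hx6
  · have hsmall : 1 ≤ Real.exp 2 * η := by
      rw [hη, ← Real.exp_add]
      refine Real.one_le_exp ?_
      have h0 : 0 ≤ Real.log x := Real.log_nonneg (by linarith)
      have h3 : tenth x ≤ 8 := by
        refine (Real.rpow_le_rpow h0 (Real.log_le_sub_one_of_pos hx0)
          (by norm_num)).trans ?_
        refine (Real.rpow_le_rpow (by linarith) (show x - 1 ≤ 8 by linarith) (by norm_num)).trans ?_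
        exact Real.rpow_le_self_of_one_le (by norm_num) (by norm_num)
      have h4 : c / 4 * tenth x ≤ 1 / 4 * 8 :=
        mul_le_mul (by linarith) h3 (Real.rpow_nonneg h0 _) (by norm_num)
      linarith
    refine (htriv x hx0.le).trans ?_
    have h4 : B * x ≤ B * Real.exp 2 * (x * η) :=
      calc B * x = B * x * 1 := (mul_one _).symm
        _ ≤ B * x * (Real.exp 2 * η) := mul_le_mul_of_nonneg_left hsmall (by positivity)
        _ = _ := by ring
    nlinarith
  rcases lt_or_ge (1 / 2) η with hbig | hsm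
  · refine (htriv x hx0.le).trans ?_
    have h5 : B * x ≤ 2 * B * (x * η) := by
      calc B * x = 2 * B * (x * (1 / 2)) := by ring
        _ ≤ _ := by gcongr
    nlinarith
  obtain ⟨hd, hd'⟩ : ∃ hd, hd = x * η := ⟨_, rfl⟩
  have hd0 : 0 < hd := hd' ▸ mul_pos hx0 hη0
  have hdx : hd ≤ x / 2 := by
    rw [hd']
    have := mul_le_mul_of_nonneg_left hsm hx0.le
    linarith
  have hu0 : 0 ≤ tenth x := Real.rpow_nonneg (Real.log_nonneg (by linarith)) _
  have hdown : Real.exp (-(c * tenth x)) ≤ η * η := by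
    rw [hη, ← Real.exp_add]
    refine Real.exp_le_exp.2 ?_
    have := mul_nonneg hc.le hu0
    linarith
  have hdown' : ∀ z : ℝ, x / 2 ≤ z → Real.exp (-(c * tenth z)) ≤ η * η := by
    intro z hz
    rw [hη, ← Real.exp_add]
    refine Real.exp_le_exp.2 ?_
    have h6 := (tenth_half (by linarith : (4 : ℝ) ≤ x)).trans (tenth_mono (by linarith) hz)
    have := mul_le_mul_of_nonneg_left h6 hc.le
    linarith
  have hgap : ∀ z : ℝ, x / 2 ≤ z → z ≤ 3 * x / 2 →
      |psiOne z - z ^ 2 / 2| ≤ 4 * C * x ^ 2 * (η * η) := by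
    intro z hz hz'
    refine (h z (by linarith)).trans ?_
    calc C * z ^ 2 * Real.exp (-(c * tenth z)) ≤ C * (4 * x ^ 2) * (η * η) := by
          refine mul_le_mul (mul_le_mul_of_nonneg_left ?_ hC) (hdown' z hz) (Real.exp_pos _).le
            (by positivity)
          nlinarith
      _ = _ := by ring
  have g0 := hgap x (by linarith) (by linarith)
  have gp := hgap (x + hd) (by linarith) (by linarith)
  have gm := hgap (x - hd) (by linarith) (by linarith)
  have up := (psiOne_sub_bounds (x := x) (y := x + hd) hx0.le (by linarith)).1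
  have lo := (psiOne_sub_bounds (x := x - hd) (y := x) (by linarith) (by linarith)).2
  rw [abs_le] at g0 gp gm
  have hkey : 8 * C * x ^ 2 * (η * η) = hd * (8 * C * (x * η)) := by rw [hd']; ring
  have hup : ψ x ≤ x + hd / 2 + 8 * C * (x * η) := by
    refine le_of_mul_le_mul_left ?_ hd0
    nlinarith
  have hlo : x - hd / 2 - 8 * C * (x * η) ≤ ψ x := by
    refine le_of_mul_le_mul_left ?_ hd0
    nlinarith
  rw [abs_le]
  constructor <;> nlinarith

/-- The region for `ζ`, with `log (|t| + 3)`. -/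
theorem exists_zero_free : ∃ c : ℝ, 0 < c ∧ ∀ s : ℂ,
    1 - c / Real.log (|s.im| + 3) ^ 9 ≤ s.re → riemannZeta s ≠ 0 := by
  obtain ⟨a, C, ha, -, -, h⟩ := exists_region
  refine ⟨a / 6 ^ 9, by positivity, fun s hs => ?_⟩
  rcases le_or_gt 1 s.re with h1 | h1
  · exact riemannZeta_ne_zero_of_one_le_re h1
  obtain ⟨l, hl⟩ : ∃ l, l = Real.log (|s.im| + 3) := ⟨_, rfl⟩
  rw [← hl] at hs
  have hl1 : 1 ≤ l := by
    rw [hl, Real.le_log_iff_exp_le (by positivity)]
    linarith [abs_nonneg s.im, Real.exp_one_lt_three]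
  have hell : ell s.im ≤ 6 * l := by
    have h6 : (6 : ℝ) * l = Real.log ((|s.im| + 3) ^ 6) := by
      rw [Real.log_pow, hl]
      norm_num
    rw [h6]
    refine Real.log_le_log (by positivity) ?_
    calc |s.im| + 100 ≤ 34 * (|s.im| + 3) := by linarith [abs_nonneg s.im]
      _ ≤ (|s.im| + 3) ^ 5 * (|s.im| + 3) := by
          refine mul_le_mul_of_nonneg_right
            ((show (34 : ℝ) ≤ 3 ^ 5 by norm_num).trans ?_) (by positivity)
          exact pow_le_pow_left₀ (by norm_num) (le_add_of_nonneg_left (abs_nonneg _)) 5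
      _ = _ := by ring
  have hr : 1 - a / ell s.im ^ 9 ≤ s.re := by
    have h9 : a / (6 * l) ^ 9 ≤ a / ell s.im ^ 9 := div_le_div_of_nonneg_left ha.le
      (pow_pos (ell_pos _) 9) (pow_le_pow_left₀ (ell_pos _).le hell 9)
    rw [mul_pow, ← div_div] at h9
    linarith
  have hs1 : s ≠ 1 := fun hh => by simp [hh] at h1
  rw [riemannZeta_eq_inv_sub_mul hs1]
  exact mul_ne_zero (inv_ne_zero (sub_ne_zero.2 hs1)) (h s hr (by linarith)).1

end FA.ZeroFree
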