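import Fermat.Agent.ZeroFreeRegion.Bounds
import Mathlib.NumberTheory.LSeries.Nonvanishing
import Mathlib.Analysis.Calculus.MeanValue

/-!
# The zero-free region

The `3-4-1` inequality and the upper bounds give `|ζ(σ + it)| ≥ b / ell t ^ 7` for
`1 - a / ell t ^ 9 ≤ σ ≤ 2`, `|t| ≥ 2`; compactness covers the bounded heights.
-/

set_option autoImplicit false

noncomputable section

namespace FA.ZeroFree

open Complex Filter Topology

/-- The constant of `norm_riemannZeta_le`. -/
def upperConst : ℝ := 4 * Real.exp 4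

/-- The constant of `norm_deriv_riemannZeta_le`. -/
def derivConst : ℝ := 20 * Real.exp 4

/-- The constant of the region. -/
def widthConst : ℝ := 1 / (128 * upperConst * (4 * derivConst) ^ 4)

theorem one_le_upperConst : 1 ≤ upperConst := by
  unfold upperConst
  linarith [Real.add_one_le_exp 4]

theorem one_le_derivConst : 1 ≤ derivConst := by
  unfold derivConst
  linarith [Real.add_one_le_exp 4]

theorem widthConst_pos : 0 < widthConst := by
  have := one_le_upperConst
  have := one_le_derivConst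
  unfold widthConst
  positivity

theorem widthConst_le_one : widthConst ≤ 1 := by
  have h1 := one_le_upperConst
  have h2 := one_le_derivConst
  have h3 : (1 : ℝ) ≤ (4 * derivConst) ^ 4 := one_le_pow₀ (by linarith)
  unfold widthConst
  rw [div_le_one (by positivity)]
  nlinarith

theorem norm_zeta_product_ge_one {δ : ℝ} (hδ : 0 < δ) (t : ℝ) :
    1 ≤ ‖riemannZeta (1 + δ)‖ ^ 3 * ‖riemannZeta (1 + δ + I * t)‖ ^ 4 *
      ‖riemannZeta (1 + δ + 2 * I * t)‖ := by
  have h := DirichletCharacter.norm_LFunction_product_ge_one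
    (N := 1) (χ := (1 : DirichletCharacter ℂ 1)) hδ t
  rw [DirichletCharacter.LFunctionTrivChar, DirichletCharacter.LFunction_modOne_eq,
    DirichletCharacter.LFunction_modOne_eq, norm_mul, norm_mul, norm_pow, norm_pow] at h
  exact h

theorem norm_zeta_real_le {δ : ℝ} (hδ : 0 < δ) (hδ1 : δ ≤ 1) :
    ‖riemannZeta (1 + δ)‖ ≤ 4 / δ := by
  have hne : (1 + δ : ℂ) ≠ 1 := by simp [hδ.ne']
  rw [riemannZeta_eq_inv_sub_mul hne, CycloGrowth.riemannZeta₁_eq (by simp; linarith),
    norm_mul, norm_inv, show (1 + (δ : ℂ) - 1) = (δ : ℂ) by ring, Complex.norm_real,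
    Real.norm_eq_abs, abs_of_pos hδ, inv_mul_eq_div]
  refine div_le_div_of_nonneg_right ((norm_sub_le _ _).trans ?_) hδ.le
  have h1 : ‖(1 + δ : ℂ)‖ ≤ 2 := by
    rw [show (1 + δ : ℂ) = ((1 + δ : ℝ) : ℂ) by push_cast; ring, Complex.norm_real,
      Real.norm_eq_abs, abs_of_pos (by linarith)]
    linarith
  have h2 : ‖CycloGrowth.fracInt (1 + δ)‖ ≤ 1 := by
    refine (CycloGrowth.norm_fracInt_le (by simp; linarith)).trans ?_
    rw [div_le_one (by simp; linarith)]
    simp
    linarith
  rw [norm_mul, norm_mul, Complex.norm_real, Real.norm_eq_abs, abs_of_pos hδ]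
  have := mul_le_mul (mul_le_mul hδ1 h1 (norm_nonneg _) zero_le_one) h2 (norm_nonneg _)
    (by norm_num)
  linarith

/-- **The lower bound to the right of `1`.** -/
theorem lower_right {σ t : ℝ} (ht : 2 ≤ |t|) (hσ : 1 + widthConst / ell t ^ 9 ≤ σ) (hσ2 : σ ≤ 2) :
    4 * widthConst * derivConst / ell t ^ 7 ≤ ‖riemannZeta (σ + t * I)‖ := by
  obtain ⟨L, hL⟩ : ∃ L, L = ell t := ⟨_, rfl⟩
  obtain ⟨δ, hδdef⟩ : ∃ δ, δ = σ - 1 := ⟨_, rfl⟩
  have hA := widthConst_pos
  have hL4 : 4 ≤ L := hL ▸ four_le_ell t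
  rw [← hL] at hσ ⊢
  have hδlo : widthConst / L ^ 9 ≤ δ := by linarith
  have hδ0 : 0 < δ := lt_of_lt_of_le (by positivity) hδlo
  have h341 := norm_zeta_product_ge_one hδ0 t
  have e1 : (1 + δ + I * t : ℂ) = σ + t * I := by rw [hδdef]; push_cast; ring
  rw [e1] at h341
  obtain ⟨Z, hZ⟩ : ∃ Z, Z = ‖riemannZeta (σ + t * I)‖ := ⟨_, rfl⟩
  rw [← hZ] at h341 ⊢
  have hZ0 : 0 ≤ Z := hZ ▸ norm_nonneg _
  have him : (1 + δ + 2 * I * t : ℂ).im = 2 * t := by simp
  have hup : ‖riemannZeta (1 + δ + 2 * I * t)‖ ≤ upperConst * (2 * L) := by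
    refine (norm_riemannZeta_le ?_ ?_).trans ?_
    · rw [him, abs_mul, abs_two]
      linarith
    · have hre : (1 + δ + 2 * I * t : ℂ).re = 1 + δ := by simp
      have : 0 < 2 / ell (2 * t) := div_pos two_pos (ell_pos _)
      rw [hre, him]
      linarith
    · rw [him, hL]
      exact mul_le_mul_of_nonneg_left (ell_two_mul t) (by positivity)
  have hd3 : (1 : ℝ) ≤ (4 / δ) ^ 3 * Z ^ 4 * (upperConst * (2 * L)) :=
    h341.trans (mul_le_mul (mul_le_mul_of_nonneg_right
      (pow_le_pow_left₀ (norm_nonneg _) (norm_zeta_real_le hδ0 (by linarith)) 3) (by positivity))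
      hup (norm_nonneg _) (by positivity))
  have hU := one_le_upperConst
  have h4 : δ ^ 3 / (128 * upperConst * L) ≤ Z ^ 4 := by
    rw [div_le_iff₀ (by positivity)]
    have h5 := mul_le_mul_of_nonneg_left hd3 (pow_nonneg hδ0.le 3)
    rw [mul_one] at h5
    refine h5.trans (le_of_eq ?_)
    field_simp
    ring
  refine le_of_pow_le_pow_left₀ four_ne_zero hZ0 (le_trans ?_ h4)
  refine le_trans ?_ (div_le_div_of_nonneg_right
    (pow_le_pow_left₀ (by positivity) hδlo 3) (by positivity))
  have hD := one_le_derivConst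
  have hkey : 128 * upperConst * (4 * derivConst) ^ 4 * widthConst = 1 := by
    unfold widthConst
    field_simp
  rw [div_pow, div_pow, ← pow_mul, ← pow_mul, div_div,
    div_le_div_iff₀ (by positivity) (by positivity)]
  calc (4 * widthConst * derivConst) ^ 4 * (L ^ (9 * 3) * (128 * upperConst * L))
      = widthConst ^ 3 * L ^ (7 * 4) *
          (128 * upperConst * (4 * derivConst) ^ 4 * widthConst) := by ring
    _ ≤ _ := by rw [hkey, mul_one]

/-- **The lower bound across the line.** -/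
theorem lower_bound {σ t : ℝ} (ht : 2 ≤ |t|) (hσ : 1 - widthConst / ell t ^ 9 ≤ σ) (hσ2 : σ ≤ 2) :
    2 * widthConst * derivConst / ell t ^ 7 ≤ ‖riemannZeta (σ + t * I)‖ := by
  obtain ⟨L, hL⟩ : ∃ L, L = ell t := ⟨_, rfl⟩
  have hA := widthConst_pos
  have hA1 := widthConst_le_one
  have hL4 : 4 ≤ L := hL ▸ four_le_ell t
  have hD := one_le_derivConst
  obtain ⟨η, hη⟩ : ∃ η, η = widthConst / L ^ 9 := ⟨_, rfl⟩
  have hη0 : 0 < η := by rw [hη]; positivity
  have hη1 : η ≤ 1 / L := by
    rw [hη]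
    exact (div_le_div_of_nonneg_right hA1 (by positivity)).trans
      (one_div_le_one_div_of_le (by linarith) (le_self_pow₀ (by linarith) (by norm_num)))
  rw [← hL, ← hη] at hσ
  have hL14 : 1 / L ≤ 1 / 4 := one_div_le_one_div_of_le (by norm_num) hL4
  rw [← hL]
  rcases le_total (1 + η) σ with h | h
  · have := lower_right ht (by rw [← hL, ← hη]; exact h) hσ2
    rw [← hL] at this
    refine le_trans ?_ this
    gcongr
    norm_num
  · have hright := lower_right (σ := 1 + η) ht (by rw [← hL, ← hη]) (by linarith)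
    rw [← hL] at hright
    have hmvt : ‖riemannZeta ((1 + η : ℝ) + t * I) - riemannZeta (σ + t * I)‖ ≤
        derivConst * L ^ 2 * |1 + η - σ| := by
      have hd : ∀ u ∈ Set.Icc σ (1 + η), HasDerivWithinAt
          (fun u : ℝ => riemannZeta (u + t * I)) (deriv riemannZeta (u + t * I))
          (Set.Icc σ (1 + η)) u := by
        intro u _
        have hne : (u + t * I : ℂ) ≠ 1 := fun h => by
          have := congrArg Complex.im h
          simp at this
          simp [this] at ht
          norm_num at ht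
        have h1 := (differentiableAt_riemannZeta hne).hasDerivAt.comp (u : ℂ)
          ((hasDerivAt_id (u : ℂ)).add_const (t * I))
        rw [mul_one] at h1
        exact h1.comp_ofReal.hasDerivWithinAt
      have hb : ∀ u ∈ Set.Icc σ (1 + η),
          ‖deriv riemannZeta (u + t * I)‖ ≤ derivConst * L ^ 2 := by
        intro u hu
        have h1 := norm_deriv_riemannZeta_le (s := u + t * I) (by simpa using ht) ?_
        · simpa [derivConst, ← hL] using h1
        · simp [← hL]
          simp at hη1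
          linarith [hu.1]
      have := (convex_Icc σ (1 + η)).norm_image_sub_le_of_norm_hasDerivWithin_le hd hb
        (Set.left_mem_Icc.2 h) (Set.right_mem_Icc.2 h)
      rwa [Real.norm_eq_abs] at this
    have h2 : derivConst * L ^ 2 * |1 + η - σ| ≤ 2 * widthConst * derivConst / L ^ 7 := by
      rw [abs_of_nonneg (by linarith)]
      calc derivConst * L ^ 2 * (1 + η - σ) ≤ derivConst * L ^ 2 * (2 * η) := by
            gcongr
            linarith
        _ = _ := by rw [hη]; field_simp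
    have h3 := norm_sub_norm_le (riemannZeta ((1 + η : ℝ) + t * I)) (riemannZeta (σ + t * I))
    have h4 : 4 * widthConst * derivConst / L ^ 7 =
        2 * widthConst * derivConst / L ^ 7 + 2 * widthConst * derivConst / L ^ 7 := by ring
    linarith

/-- `ζ'/ζ + ζ` with the pole removed, negated: the Dirichlet series of `Λ n - 1`. -/
def errLog (s : ℂ) : ℂ := -(deriv riemannZeta₁ s / riemannZeta₁ s) - riemannZeta₀ s

theorem errLog_eq {s : ℂ} (hs : s ≠ 1) (hz : riemannZeta s ≠ 0) :
    errLog s = -deriv riemannZeta s / riemannZeta s - riemannZeta s := by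
  have h1 := sub_ne_zero.2 hs
  have hz1 : riemannZeta₁ s ≠ 0 := fun h => hz (by rw [riemannZeta_eq_inv_sub_mul hs, h, mul_zero])
  have hr0 : riemannZeta₀ s = riemannZeta s - (s - 1)⁻¹ := by
    rw [riemannZeta_eq_inv_sub_add hs]
    ring
  rw [errLog, hr0, deriv_riemannZeta_eq_neg_inv_sub_sq_mul_add hs, riemannZeta_eq_inv_sub_mul hs]
  field_simp
  ring

theorem riemannZeta₁_ne_zero_of_one_le {s : ℂ} (hs : 1 ≤ s.re) : riemannZeta₁ s ≠ 0 := by
  rcases eq_or_ne s 1 with rfl | h
  · simp
  · intro h0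
    exact riemannZeta_ne_zero_of_one_le_re hs (by rw [riemannZeta_eq_inv_sub_mul h, h0, mul_zero])

/-- The bounded heights. -/
theorem exists_low_region : ∃ η, 0 < η ∧ η ≤ 1 / 2 ∧
    ∀ s : ℂ, |s.im| ≤ 2 → 1 - η ≤ s.re → s.re ≤ 2 → riemannZeta₁ s ≠ 0 := by
  obtain ⟨Z, hZ⟩ : ∃ Z : Set ℂ, Z =
      (Set.Icc (1 / 2 : ℝ) 2 ×ℂ Set.Icc (-2 : ℝ) 2) ∩ riemannZeta₁ ⁻¹' {0} := ⟨_, rfl⟩
  have hc : IsCompact Z := hZ ▸ (IsCompact.reProdIm isCompact_Icc isCompact_Icc).inter_right
    (isClosed_singleton.preimage differentiable_riemannZeta₁.continuous)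
  have hmem : ∀ s : ℂ, |s.im| ≤ 2 → 1 / 2 ≤ s.re → s.re ≤ 2 → riemannZeta₁ s = 0 → s ∈ Z :=
    fun s h1 h2 h3 h4 => hZ ▸ ⟨Complex.mem_reProdIm.2 ⟨⟨h2, h3⟩, abs_le.1 h1⟩, h4⟩
  rcases Z.eq_empty_or_nonempty with he | hne
  · refine ⟨1 / 2, by norm_num, le_rfl, fun s h1 h2 h3 h4 => ?_⟩
    have := hmem s h1 (by linarith) h3 h4
    simp [he] at this
  · obtain ⟨z, hz, hmax⟩ := hc.exists_isMaxOn hne Complex.continuous_re.continuousOn
    have hz1 : z.re < 1 := by
      by_contra h
      rw [hZ] at hz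
      exact riemannZeta₁_ne_zero_of_one_le (not_lt.1 h) hz.2
    have hzlo : 1 / 2 ≤ z.re := by
      rw [hZ] at hz
      exact (Complex.mem_reProdIm.1 hz.1).1.1
    refine ⟨(1 - z.re) / 2, by linarith, by linarith, fun s h1 h2 h3 h4 => ?_⟩
    have hsz : s.re ≤ z.re := hmax (hmem s h1 (by linarith) h3 h4)
    linarith

theorem differentiableAt_errLog {s : ℂ} (h : riemannZeta₁ s ≠ 0) :
    DifferentiableAt ℂ errLog s := by
  have h1 : DifferentiableAt ℂ (deriv riemannZeta₁) s :=
    differentiable_riemannZeta₁.deriv s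
  exact ((h1.div (differentiable_riemannZeta₁ s) h).neg).sub (differentiable_riemannZeta₀ s)

/-- **The region and the bound for the logarithmic derivative in it.** -/
theorem exists_region : ∃ a C, 0 < a ∧ a ≤ 1 ∧ 0 ≤ C ∧ ∀ s : ℂ,
    1 - a / ell s.im ^ 9 ≤ s.re → s.re ≤ 2 →
      riemannZeta₁ s ≠ 0 ∧ ‖errLog s‖ ≤ C * ell s.im ^ 9 := by
  obtain ⟨η, hη, hη', hlow⟩ := exists_low_region
  obtain ⟨a, ha⟩ : ∃ a, a = min widthConst η := ⟨_, rfl⟩
  have hK : IsCompact (Set.Icc (1 - η) 2 ×ℂ Set.Icc (-2 : ℝ) 2) :=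
    IsCompact.reProdIm isCompact_Icc isCompact_Icc
  obtain ⟨M, hM⟩ := hK.exists_bound_of_continuousOn (f := errLog) fun s hs =>
    ((differentiableAt_errLog (hlow s (abs_le.2 (Complex.mem_reProdIm.1 hs).2)
      (Complex.mem_reProdIm.1 hs).1.1 (Complex.mem_reProdIm.1 hs).1.2)).continuousAt
        ).continuousWithinAt
  have hA := widthConst_pos
  have hD := one_le_derivConst
  have hU := one_le_upperConst
  refine ⟨a, |M| + derivConst / (2 * widthConst * derivConst) + upperConst,
    ha ▸ lt_min hA hη, ha ▸ (min_le_left _ _).trans widthConst_le_one, by positivity,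
    fun s hs hs2 => ?_⟩
  have hℓ : 1 ≤ ell s.im ^ 9 := one_le_pow₀ (by linarith [four_le_ell s.im])
  have hnn : 0 ≤ derivConst / (2 * widthConst * derivConst) := by positivity
  rcases le_total |s.im| 2 with ht | ht
  · have h1 : 1 - η ≤ s.re := by
      have : a / ell s.im ^ 9 ≤ η := (div_le_self (ha ▸ (lt_min hA hη).le) hℓ).trans
        (ha ▸ min_le_right _ _)
      linarith
    refine ⟨hlow s ht h1 hs2, ?_⟩
    refine ((hM s (Complex.mem_reProdIm.2 ⟨⟨h1, hs2⟩, abs_le.1 ht⟩)).trans (le_abs_self M)).trans ?_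
    calc |M| ≤ (|M| + derivConst / (2 * widthConst * derivConst) + upperConst) * 1 := by linarith
      _ ≤ _ := mul_le_mul_of_nonneg_left hℓ (by positivity)
  · have hσ : 1 - widthConst / ell s.im ^ 9 ≤ s.re := by
      have : a / ell s.im ^ 9 ≤ widthConst / ell s.im ^ 9 :=
        div_le_div_of_nonneg_right (ha ▸ min_le_left _ _) (by positivity)
      linarith
    have hlb := lower_bound ht hσ hs2
    rw [Complex.re_add_im] at hlb
    have hpos : 0 < ‖riemannZeta s‖ :=
      lt_of_lt_of_le (by have := ell_pos s.im; positivity) hlb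
    have hs1 : s ≠ 1 := fun h => by rw [h] at ht; norm_num at ht
    have hz : riemannZeta₁ s ≠ 0 := fun h => (norm_pos_iff.1 hpos)
      (by rw [riemannZeta_eq_inv_sub_mul hs1, h, mul_zero])
    refine ⟨hz, ?_⟩
    obtain ⟨L, hL⟩ : ∃ L, L = ell s.im := ⟨_, rfl⟩
    rw [← hL] at hlb hℓ hσ ⊢
    have hL4 : 4 ≤ L := hL ▸ four_le_ell _
    have hw : widthConst / L ^ 9 ≤ 1 / L :=
      (div_le_div_of_nonneg_right widthConst_le_one (by positivity)).trans
        (one_div_le_one_div_of_le (by linarith) (le_self_pow₀ (by linarith) (by norm_num)))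
    have hd : ‖deriv riemannZeta s‖ ≤ derivConst * L ^ 2 := by
      have := norm_deriv_riemannZeta_le (s := s) ht (by rw [← hL]; linarith)
      rwa [← hL] at this
    have hu : ‖riemannZeta s‖ ≤ upperConst * L := by
      have h2 : 1 / L ≤ 2 / L := by gcongr; norm_num
      have := norm_riemannZeta_le (s := s) (by linarith) (by rw [← hL]; linarith)
      rwa [← hL] at this
    rw [errLog_eq hs1 (norm_pos_iff.1 hpos)]
    refine (norm_sub_le _ _).trans ?_
    have e1 : ‖-deriv riemannZeta s / riemannZeta s‖ ≤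
        derivConst / (2 * widthConst * derivConst) * L ^ 9 := by
      rw [norm_div, norm_neg]
      refine (div_le_div₀ (by positivity) hd (by positivity) hlb).trans (le_of_eq ?_)
      field_simp
    have e2 : upperConst * L ≤ upperConst * L ^ 9 :=
      mul_le_mul_of_nonneg_left (le_self_pow₀ (by linarith) (by norm_num)) (by linarith)
    have e3 : 0 ≤ |M| * L ^ 9 := by positivity
    linarith

end FA.ZeroFree
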