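import Fermat.Agent.CycloGrowth.ZetaStrip
import Mathlib.Analysis.Complex.Liouville
import Mathlib.NumberTheory.Harmonic.Bounds

/-!
# The zeta function near the line `re s = 1`

With `ell t = log (|t| + 100)`: `ζ(σ + it) = O (ell t)` for `σ ≥ 1 - 2 / ell t` and `|t| ≥ 1`,
and `ζ'(σ + it) = O (ell t ^ 2)` for `σ ≥ 1 - 1 / ell t` and `|t| ≥ 2`.
-/

set_option autoImplicit false

noncomputable section

namespace FA.ZeroFree

open Complex MeasureTheory Finset

/-- The logarithm used in all bounds. -/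
def ell (t : ℝ) : ℝ := Real.log (|t| + 100)

theorem four_le_ell (t : ℝ) : 4 ≤ ell t := by
  unfold ell
  rw [Real.le_log_iff_exp_le (by positivity)]
  calc Real.exp 4 = Real.exp 1 ^ 4 := by rw [← Real.exp_nat_mul]; norm_num
    _ ≤ 3 ^ 4 := pow_le_pow_left₀ (Real.exp_pos 1).le Real.exp_one_lt_three.le 4
    _ ≤ _ := by linarith [abs_nonneg t, show (3 : ℝ) ^ 4 = 81 by norm_num]

theorem ell_pos (t : ℝ) : 0 < ell t := by linarith [four_le_ell t]

theorem ell_mono {s t : ℝ} (h : |s| ≤ |t|) : ell s ≤ ell t :=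
  Real.log_le_log (by positivity) (by linarith)

theorem ell_two_mul (t : ℝ) : ell (2 * t) ≤ 2 * ell t := by
  have h2 : (2 : ℝ) * ell t = Real.log ((|t| + 100) ^ 2) := by
    rw [Real.log_pow]
    rfl
  rw [h2]
  refine Real.log_le_log (by positivity) ?_
  rw [abs_mul, abs_two]
  nlinarith [abs_nonneg t]

theorem ell_near {s t : ℝ} (h : |s - t| ≤ 1) : ell s ≤ 5 / 4 * ell t := by
  have h1 : |s| ≤ |t| + 1 := by
    have := abs_sub_abs_le_abs_sub s t
    linarith
  have hl2 : Real.log 2 ≤ 1 := by linarith [Real.log_two_lt_d9]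
  calc ell s ≤ Real.log (2 * (|t| + 100)) :=
        Real.log_le_log (by positivity) (by linarith [abs_nonneg t])
    _ = Real.log 2 + ell t := Real.log_mul two_ne_zero (by positivity)
    _ ≤ _ := by linarith [four_le_ell t]

/-- **The truncated series.** -/
theorem riemannZeta_truncated {s : ℂ} (hs : 0 < s.re) (hs1 : s ≠ 1) {N : ℕ} (hN : 1 ≤ N) :
    riemannZeta s = ∑ n ∈ Icc 1 N, 1 / (n : ℂ) ^ s + (N : ℂ) ^ (1 - s) / (s - 1) -
      s * ∫ t in Set.Ioi (N : ℝ), ((t - (⌊t⌋₊ : ℝ) : ℝ) : ℂ) * (t : ℂ) ^ (-(s + 1)) := by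
  have hs0 : s ≠ 0 := fun h => by simp [h] at hs
  have hN0 : (0 : ℝ) < N := Nat.cast_pos.2 hN
  obtain ⟨f, hf⟩ : ∃ f : ℕ → ℂ, f = fun k => if 1 ≤ k ∧ k ≤ N then 1 else 0 := ⟨_, rfl⟩
  have hsum : ∀ m : ℕ, ∑ k ∈ Icc 1 m, f k = ((min m N : ℕ) : ℂ) := fun m => by
    rw [hf, ← sum_filter, show (Icc 1 m).filter (fun k => 1 ≤ k ∧ k ≤ N) = Icc 1 (min m N) by
      ext k; simp only [mem_filter, mem_Icc]; omega]
    simp
  have hzero : ∀ k, k ∉ Icc 1 N → LSeries.term f s k = 0 := fun k hk => by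
    rw [mem_Icc] at hk
    rcases eq_or_ne k 0 with rfl | h0
    · simp
    · rw [LSeries.term_of_ne_zero h0, hf]
      simp [hk]
  have hSum : LSeriesSummable f s := summable_of_ne_finset_zero hzero
  have hval : LSeries f s = ∑ n ∈ Icc 1 N, 1 / (n : ℂ) ^ s := by
    rw [LSeries, tsum_eq_sum hzero]
    refine sum_congr rfl fun k hk => ?_
    rw [mem_Icc] at hk
    rw [LSeries.term_of_ne_zero (by omega), hf]
    simp [hk]
  have hI := LSeries_eq_mul_integral f le_rfl hs hSum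
    (Asymptotics.IsBigO.of_bound (N : ℝ) (Filter.Eventually.of_forall fun n => by
      rw [hsum, Real.rpow_zero, Complex.norm_natCast, norm_one, mul_one]
      exact_mod_cast min_le_right n N))
  simp only [hval, hsum] at hI
  obtain ⟨F, hF⟩ : ∃ F : ℝ → ℂ,
      F = fun t => ((t - (⌊t⌋₊ : ℝ) : ℝ) : ℂ) * (t : ℂ) ^ (-(s + 1)) := ⟨_, rfl⟩
  obtain ⟨G, hG⟩ : ∃ G : ℝ → ℂ,
      G = fun t : ℝ => ((min ⌊t⌋₊ N : ℕ) : ℂ) * (t : ℂ) ^ (-(s + 1)) := ⟨_, rfl⟩
  have hFm : Measurable F := hF ▸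
    CycloGrowth.measurable_frac.mul (Complex.measurable_ofReal.pow_const _)
  have hFi : IntegrableOn F (Set.Ioi 1) := by
    refine (integrableOn_Ioi_rpow_of_lt (a := -(s.re + 1)) (by linarith) one_pos).mono'
      hFm.aestronglyMeasurable ?_
    filter_upwards [ae_restrict_mem measurableSet_Ioi] with t ht
    rw [hF]
    exact CycloGrowth.norm_fracIntegrand_le ht
  have hGi : IntegrableOn G (Set.Ioi 1) := by
    refine ((integrableOn_Ioi_rpow_of_lt (a := -(s.re + 1)) (by linarith) one_pos).const_mul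
      (N : ℝ)).mono' ?_ ?_
    · rw [hG]
      exact (((measurable_of_countable fun n : ℕ => ((min n N : ℕ) : ℂ)).comp
        Nat.measurable_floor).mul
          (Complex.measurable_ofReal.pow_const _)).aestronglyMeasurable
    · filter_upwards [ae_restrict_mem measurableSet_Ioi] with t ht
      rw [hG]
      simp only [norm_mul, Complex.norm_natCast]
      rw [Complex.norm_cpow_eq_rpow_re_of_pos (zero_lt_one.trans ht),
        show (-(s + 1)).re = -(s.re + 1) by simp]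
      exact mul_le_mul_of_nonneg_right (by exact_mod_cast min_le_right _ _)
        (Real.rpow_nonneg (zero_le_one.trans (le_of_lt ht)) _)
  have h1N : (1 : ℝ) ≤ N := Nat.one_le_cast.2 hN
  have hd : Disjoint (Set.Ioc 1 (N : ℝ)) (Set.Ioi (N : ℝ)) :=
    Set.disjoint_left.2 fun t h1 h2 => not_lt.2 h1.2 h2
  have hsplit : ∀ H : ℝ → ℂ, IntegrableOn H (Set.Ioi 1) → ∫ t in Set.Ioi (1 : ℝ), H t =
      (∫ t in Set.Ioc (1 : ℝ) N, H t) + ∫ t in Set.Ioi (N : ℝ), H t := fun H hH => by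
    rw [← setIntegral_union hd measurableSet_Ioi (hH.mono_set Set.Ioc_subset_Ioi_self)
      (hH.mono_set (Set.Ioi_subset_Ioi h1N)), Set.Ioc_union_Ioi_eq_Ioi h1N]
  have hlow : (∫ t in Set.Ioc (1 : ℝ) N, F t) + (∫ t in Set.Ioc (1 : ℝ) N, G t) =
      ((N : ℂ) ^ (1 - s) - 1) / (1 - s) := by
    rw [← integral_add (hFi.mono_set Set.Ioc_subset_Ioi_self)
      (hGi.mono_set Set.Ioc_subset_Ioi_self)]
    rw [setIntegral_congr_fun (g := fun t : ℝ => (t : ℂ) ^ (-s)) measurableSet_Ioc fun t ht => ?_]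
    · rw [← intervalIntegral.integral_of_le h1N, integral_cpow (Or.inr ⟨?_, ?_⟩)]
      · simp [show -s + 1 = 1 - s by ring]
      · exact fun h => hs1 (by linear_combination -h)
      · rw [Set.uIcc_of_le h1N]
        exact fun h => absurd h.1 (by norm_num)
    · have ht0 : (t : ℂ) ≠ 0 := Complex.ofReal_ne_zero.2 (ne_of_gt (zero_lt_one.trans ht.1))
      have hfl : min ⌊t⌋₊ N = ⌊t⌋₊ := min_eq_left (Nat.floor_le_of_le ht.2)
      simp only [hF, hG, hfl]
      rw [← add_mul, show -s = 1 + -(s + 1) by ring, cpow_add _ _ ht0, cpow_one]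
      push_cast
      ring_nf
  have hhigh : ∫ t in Set.Ioi (N : ℝ), G t = (N : ℂ) ^ (1 - s) / s := by
    rw [setIntegral_congr_fun (g := fun t : ℝ => (N : ℂ) * (t : ℂ) ^ (-(s + 1))) measurableSet_Ioi
      fun t ht => ?_]
    · rw [integral_const_mul, integral_Ioi_cpow_of_lt (by simp; linarith) hN0,
        show -(s + 1) + 1 = -s by ring, Complex.ofReal_natCast, neg_div_neg_eq,
        ← mul_div_assoc, show (1 : ℂ) - s = 1 + -s by ring,
        cpow_add _ _ (Nat.cast_ne_zero.2 (by omega)), cpow_one]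
    · rw [hG]
      simp only
      rw [min_eq_right (Nat.le_floor (le_of_lt ht))]
  have hz : riemannZeta s = s / (s - 1) - s * CycloGrowth.fracInt s := by
    rw [riemannZeta_eq_inv_sub_mul hs1, CycloGrowth.riemannZeta₁_eq hs]
    have := sub_ne_zero.2 hs1
    field_simp
  have hFI : CycloGrowth.fracInt s = ∫ t in Set.Ioi (1 : ℝ), F t := by rw [hF]; rfl
  have hGI : ∫ t in Set.Ioi (1 : ℝ), G t =
      ∫ t in Set.Ioi (1 : ℝ), ((min ⌊t⌋₊ N : ℕ) : ℂ) * (t : ℂ) ^ (-(s + 1)) := by rw [hG]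
  rw [show (∫ t in Set.Ioi (N : ℝ), ((t - (⌊t⌋₊ : ℝ) : ℝ) : ℂ) * (t : ℂ) ^ (-(s + 1))) =
    ∫ t in Set.Ioi (N : ℝ), F t by rw [hF], hI, ← hGI, hz, hFI, hsplit F hFi, hsplit G hGi, hhigh]
  have e : ∫ t in Set.Ioc (1 : ℝ) N, G t = ((N : ℂ) ^ (1 - s) - 1) / (1 - s) -
      ∫ t in Set.Ioc (1 : ℝ) N, F t := by linear_combination hlow
  rw [e]
  have h1 := sub_ne_zero.2 hs1
  have h2 : (1 : ℂ) - s ≠ 0 := sub_ne_zero.2 hs1.symm
  field_simp
  ring

/-- **`ζ = O (ell t)`** in the thin strip. -/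
theorem norm_riemannZeta_le {s : ℂ} (ht : 1 ≤ |s.im|) (hs : 1 - 2 / ell s.im ≤ s.re) :
    ‖riemannZeta s‖ ≤ 4 * Real.exp 4 * ell s.im := by
  obtain ⟨L, hL⟩ : ∃ L, L = ell s.im := ⟨_, rfl⟩
  rw [← hL] at hs ⊢
  have hL4 : 4 ≤ L := hL ▸ four_le_ell _
  have hσ : 1 / 2 ≤ s.re := by
    have : 2 / L ≤ 1 / 2 := by rw [div_le_iff₀ (by linarith)]; linarith
    linarith
  have hs1 : s ≠ 1 := fun h => by rw [h] at ht; norm_num at ht
  obtain ⟨N, hN⟩ : ∃ N : ℕ, N = ⌈|s.im| + 100⌉₊ := ⟨_, rfl⟩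
  have hNlo : |s.im| + 100 ≤ (N : ℝ) := hN ▸ Nat.le_ceil _
  have hNhi : (N : ℝ) ≤ |s.im| + 101 := by
    have := Nat.ceil_lt_add_one (show (0 : ℝ) ≤ |s.im| + 100 by positivity)
    rw [← hN] at this
    linarith
  have hN1 : 1 ≤ N := by
    have : (1 : ℝ) ≤ N := by linarith [abs_nonneg s.im]
    exact_mod_cast this
  have hN0 : (0 : ℝ) < N := Nat.cast_pos.2 hN1
  have hlogN : Real.log N ≤ 2 * L := by
    rw [hL, show (2 : ℝ) * ell s.im = Real.log ((|s.im| + 100) ^ 2) by rw [Real.log_pow]; rfl]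
    exact Real.log_le_log hN0 (by nlinarith [abs_nonneg s.im])
  have hpow : ∀ n : ℕ, 1 ≤ n → n ≤ N → (n : ℝ) ^ (-s.re) ≤ Real.exp 4 * (1 / n) := by
    intro n hn hnN
    have hn0 : (0 : ℝ) < n := Nat.cast_pos.2 hn
    rw [show -s.re = -1 + (1 - s.re) by ring, Real.rpow_add hn0, Real.rpow_neg_one, one_div,
      mul_comm (Real.exp 4)]
    refine mul_le_mul_of_nonneg_left ?_ (inv_nonneg.2 hn0.le)
    rw [Real.rpow_def_of_pos hn0]
    refine Real.exp_le_exp.2 ?_
    have h0 : 0 ≤ Real.log n := Real.log_nonneg (Nat.one_le_cast.2 hn)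
    have h1 : Real.log n ≤ 2 * L :=
      (Real.log_le_log hn0 (Nat.cast_le.2 hnN)).trans hlogN
    calc Real.log n * (1 - s.re) ≤ Real.log n * (2 / L) :=
          mul_le_mul_of_nonneg_left (by linarith) h0
      _ ≤ 2 * L * (2 / L) := mul_le_mul_of_nonneg_right h1 (by positivity)
      _ = 4 := by field_simp; ring
  have hN' := hpow N hN1 le_rfl
  rw [riemannZeta_truncated (by linarith) hs1 hN1]
  refine (norm_sub_le _ _).trans ((add_le_add (norm_add_le _ _) le_rfl).trans ?_)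
  have t1 : ‖∑ n ∈ Icc 1 N, 1 / (n : ℂ) ^ s‖ ≤ Real.exp 4 * (1 + 2 * L) := by
    refine (norm_sum_le _ _).trans ?_
    calc ∑ n ∈ Icc 1 N, ‖1 / (n : ℂ) ^ s‖ ≤ ∑ n ∈ Icc 1 N, Real.exp 4 * (1 / (n : ℝ)) := by
          refine sum_le_sum fun n hn => ?_
          rw [mem_Icc] at hn
          rw [norm_div, norm_one, Complex.norm_natCast_cpow_of_pos hn.1, one_div,
            ← Real.rpow_neg (Nat.cast_nonneg n)]
          exact hpow n hn.1 hn.2
      _ ≤ _ := by
          rw [← mul_sum]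
          refine mul_le_mul_of_nonneg_left ?_ (Real.exp_pos _).le
          have h := harmonic_le_one_add_log N
          simp [harmonic_eq_sum_Icc] at h
          simpa [one_div] using h.trans (by linarith)
  have t2 : ‖(N : ℂ) ^ (1 - s) / (s - 1)‖ ≤ Real.exp 4 := by
    rw [norm_div, Complex.norm_natCast_cpow_of_pos hN1,
      show (1 - s).re = 1 + -s.re by simp; ring, Real.rpow_add hN0, Real.rpow_one]
    have h1 : 1 ≤ ‖s - 1‖ := ht.trans (by simpa using Complex.abs_im_le_norm (s - 1))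
    refine (div_le_self (by positivity) h1).trans ?_
    calc (N : ℝ) * (N : ℝ) ^ (-s.re) ≤ N * (Real.exp 4 * (1 / N)) :=
          mul_le_mul_of_nonneg_left hN' hN0.le
      _ = _ := by field_simp
  have t3 : ‖s * ∫ t in Set.Ioi (N : ℝ), ((t - (⌊t⌋₊ : ℝ) : ℝ) : ℂ) * (t : ℂ) ^ (-(s + 1))‖ ≤
      3 * Real.exp 4 := by
    have hi : ‖∫ t in Set.Ioi (N : ℝ), ((t - (⌊t⌋₊ : ℝ) : ℝ) : ℂ) * (t : ℂ) ^ (-(s + 1))‖ ≤
        (N : ℝ) ^ (-s.re) / s.re := by
      refine (norm_integral_le_of_norm_le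
        (integrableOn_Ioi_rpow_of_lt (a := -(s.re + 1)) (by linarith) hN0) ?_).trans (le_of_eq ?_)
      · filter_upwards [ae_restrict_mem measurableSet_Ioi] with t ht
        exact CycloGrowth.norm_fracIntegrand_le
          (lt_of_le_of_lt (Nat.one_le_cast.2 hN1) ht)
      · rw [integral_Ioi_rpow_of_lt (by linarith) hN0, show -(s.re + 1) + 1 = -s.re by ring,
          neg_div_neg_eq]
    rw [norm_mul]
    have hn : ‖s‖ ≤ s.re + |s.im| := by
      have := Complex.norm_le_abs_re_add_abs_im s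
      rwa [abs_of_nonneg (show 0 ≤ s.re by linarith)] at this
    have hratio : ‖s‖ / s.re ≤ 3 * |s.im| := by
      rw [div_le_iff₀ (by linarith)]
      nlinarith [mul_le_mul_of_nonneg_left hσ (abs_nonneg s.im),
        mul_le_mul_of_nonneg_right ht (show 0 ≤ s.re by linarith)]
    calc _ ≤ ‖s‖ * ((N : ℝ) ^ (-s.re) / s.re) := mul_le_mul_of_nonneg_left hi (norm_nonneg _)
      _ = ‖s‖ / s.re * (N : ℝ) ^ (-s.re) := by ring
      _ ≤ 3 * |s.im| * (Real.exp 4 * (1 / N)) :=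
          mul_le_mul hratio hN' (Real.rpow_nonneg hN0.le _) (by positivity)
      _ = 3 * Real.exp 4 * (|s.im| / N) := by ring
      _ ≤ _ := mul_le_of_le_one_right (by positivity)
          ((div_le_one hN0).2 (by linarith))
  have := mul_le_mul_of_nonneg_left hL4 (Real.exp_pos 4).le
  nlinarith [add_le_add (add_le_add t1 t2) t3, Real.exp_pos 4]

/-- **`ζ' = O (ell t ^ 2)`.** -/
theorem norm_deriv_riemannZeta_le {s : ℂ} (ht : 2 ≤ |s.im|) (hs : 1 - 1 / ell s.im ≤ s.re) :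
    ‖deriv riemannZeta s‖ ≤ 20 * Real.exp 4 * ell s.im ^ 2 := by
  obtain ⟨L, hL⟩ : ∃ L, L = ell s.im := ⟨_, rfl⟩
  rw [← hL] at hs ⊢
  have hL4 : 4 ≤ L := hL ▸ four_le_ell _
  obtain ⟨ρ, hρ⟩ : ∃ ρ, ρ = 1 / (4 * L) := ⟨_, rfl⟩
  have hρ0 : 0 < ρ := by rw [hρ]; positivity
  have hρ1 : ρ ≤ 1 / 16 := by
    rw [hρ]
    exact one_div_le_one_div_of_le (by norm_num) (by linarith)
  have hball : ∀ z ∈ Metric.closedBall s ρ, z ≠ 1 ∧ ‖riemannZeta z‖ ≤ 5 * Real.exp 4 * L := by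
    intro z hz
    rw [Metric.mem_closedBall, Complex.dist_eq] at hz
    have him := (Complex.abs_im_le_norm (z - s)).trans hz
    have hre := (Complex.abs_re_le_norm (z - s)).trans hz
    rw [Complex.sub_im] at him
    rw [Complex.sub_re] at hre
    have h1 : 1 ≤ |z.im| := by
      have := abs_sub_abs_le_abs_sub s.im z.im
      rw [abs_sub_comm] at this
      linarith
    refine ⟨fun h => by rw [h] at h1; norm_num at h1, ?_⟩
    have hell : ell z.im ≤ 5 / 4 * L := hL ▸ ell_near (him.trans (by linarith))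
    have h2 : 1 - 2 / ell z.im ≤ z.re := by
      have h3 : (8 / 5) / L ≤ 2 / ell z.im := by
        rw [div_le_div_iff₀ (by linarith) (ell_pos _)]
        linarith
      have h4 : 1 / L + 1 / (4 * L) ≤ (8 / 5) / L := by
        rw [div_add_div _ _ (by positivity) (by positivity),
          div_le_div_iff₀ (by positivity) (by positivity)]
        nlinarith
      linarith [(abs_le.1 hre).1, hρ ▸ (le_refl ρ)]
    refine (norm_riemannZeta_le h1 h2).trans ?_
    nlinarith [Real.exp_pos 4]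
  have hd : DiffContOnCl ℂ riemannZeta (Metric.ball s ρ) :=
    DifferentiableOn.diffContOnCl_ball (fun z hz =>
      (differentiableAt_riemannZeta (hball z hz).1).differentiableWithinAt) subset_rfl
  refine (norm_deriv_le_of_forall_mem_sphere_norm_le hρ0 hd
    fun z hz => (hball z (Metric.sphere_subset_closedBall hz)).2).trans (le_of_eq ?_)
  rw [hρ]
  field_simp
  ring

end FA.ZeroFree
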