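import Fermat.Agent.ZeroFreeRegion.LowerBound
import Mathlib.Analysis.MellinInversion
import Mathlib.Analysis.SpecialFunctions.JapaneseBracket
import Mathlib.NumberTheory.LSeries.Dirichlet
import Mathlib.NumberTheory.LSeries.Linearity
import Mathlib.NumberTheory.Chebyshev

/-!
# The smoothed sum and the shift of the line of integration

`∑_{n ≤ x} (Λ n - 1) (1 - n / x)` is the inverse Mellin integral of `errLog s / (s (s + 1))`.
Moving the line to `σ = 1 - a / ell T ^ 9` for `|y| ≤ T` gives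
`O (x (x ^ (- a / ell T ^ 9) + T ^ (-1/2)))`.
-/

set_option autoImplicit false

noncomputable section

namespace FA.ZeroFree

open Complex MeasureTheory Filter Topology
open scoped ArithmeticFunction.vonMangoldt Real

/-- The tent `max (1 - u) 0`. -/
def tent (u : ℝ) : ℝ := max (1 - u) 0

theorem hasMellin_tent {s : ℂ} (hs : 0 < s.re) :
    HasMellin (fun u => (tent u : ℂ)) s (1 / (s * (s + 1))) := by
  have h := hasMellin_sub (hasMellin_one_Ioc hs).1
    (hasMellin_cpow_Ioc 1 (s := s) (by simp; linarith)).1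
  rw [(hasMellin_one_Ioc hs).2, (hasMellin_cpow_Ioc 1 (s := s) (by simp; linarith)).2] at h
  have he : Set.EqOn (fun t : ℝ => (t : ℂ) ^ (s - 1) •
      ((Set.Ioc 0 1).indicator (fun _ => (1 : ℂ)) t -
        (Set.Ioc 0 1).indicator (fun t : ℝ => (t : ℂ) ^ (1 : ℂ)) t))
      (fun t : ℝ => (t : ℂ) ^ (s - 1) • (tent t : ℂ)) (Set.Ioi 0) := by
    intro t ht
    simp only
    congr 1
    rcases le_or_gt t 1 with h1 | h1
    · rw [Set.indicator_of_mem (Set.mem_Ioc.2 ⟨ht, h1⟩),
        Set.indicator_of_mem (Set.mem_Ioc.2 ⟨ht, h1⟩), cpow_one, tent, max_eq_left (by linarith)]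
      push_cast
      rfl
    · rw [Set.indicator_of_notMem (fun h' => absurd h'.2 (not_le.2 h1)),
        Set.indicator_of_notMem (fun h' => absurd h'.2 (not_le.2 h1)), tent,
        max_eq_right (by linarith), sub_zero, Complex.ofReal_zero]
  refine ⟨h.1.congr_fun he measurableSet_Ioi, ?_⟩
  rw [mellin, ← setIntegral_congr_fun measurableSet_Ioi he]
  refine h.2.trans ?_
  have h0 : s ≠ 0 := fun h => by simp [h] at hs
  have h1 : s + 1 ≠ 0 := fun h => by
    have := congrArg Complex.re h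
    simp at this
    linarith
  field_simp
  ring

/-- `1 + y²` raised to `-3/4`. -/
def decay (y : ℝ) : ℝ := (1 + y ^ 2) ^ (-(3 / 4) : ℝ)

theorem decay_pos (y : ℝ) : 0 < decay y := Real.rpow_pos_of_pos (by positivity) _

theorem integrable_decay : Integrable decay := by
  have h := integrable_rpow_neg_one_add_norm_sq (E := ℝ) (μ := volume) (r := 3 / 2)
    (by simp; norm_num)
  refine h.congr (Eventually.of_forall fun y => ?_)
  simp only [decay, Real.norm_eq_abs, sq_abs]
  norm_num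

theorem norm_kernel_inv_le {σ : ℝ} (hσ : 1 / 2 ≤ σ) (y : ℝ) :
    1 / ‖((σ : ℂ) + y * I) * ((σ : ℂ) + y * I + 1)‖ ≤ 4 / (1 + y ^ 2) := by
  have h1 : ‖(σ : ℂ) + y * I‖ ^ 2 = σ ^ 2 + y ^ 2 := by
    rw [Complex.sq_norm, Complex.normSq_apply]
    simp
    ring
  have h2 : ‖(σ : ℂ) + y * I‖ ≤ ‖(σ : ℂ) + y * I + 1‖ := by
    rw [← Real.sqrt_sq (norm_nonneg ((σ : ℂ) + y * I)),
      ← Real.sqrt_sq (norm_nonneg ((σ : ℂ) + y * I + 1))]
    refine Real.sqrt_le_sqrt ?_
    rw [Complex.sq_norm, Complex.sq_norm, Complex.normSq_apply, Complex.normSq_apply]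
    simp
    nlinarith
  have h3 : 1 / 4 * (1 + y ^ 2) ≤ ‖((σ : ℂ) + y * I) * ((σ : ℂ) + y * I + 1)‖ := by
    rw [norm_mul]
    refine le_trans ?_ (mul_le_mul_of_nonneg_left h2 (norm_nonneg _))
    rw [← sq, h1]
    nlinarith [sq_nonneg y]
  refine (one_div_le_one_div_of_le (by positivity) h3).trans (le_of_eq ?_)
  field_simp

theorem inv_le_decay (y : ℝ) : 1 / (1 + y ^ 2) ≤ decay y := by
  have h : (0 : ℝ) ≤ y ^ 2 := sq_nonneg y
  rw [decay, one_div, ← Real.rpow_neg_one]
  exact Real.rpow_le_rpow_of_exponent_le (by linarith) (by norm_num)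

theorem tent_inversion {σ : ℝ} (hσ : 1 / 2 ≤ σ) {u : ℝ} (hu : 0 < u) :
    (1 / (2 * π)) • ∫ y : ℝ, (u : ℂ) ^ (-((σ : ℂ) + y * I)) •
      (1 / (((σ : ℂ) + y * I) * ((σ : ℂ) + y * I + 1))) = (tent u : ℂ) := by
  have hval : ∀ y : ℝ, mellin (fun u => (tent u : ℂ)) ((σ : ℂ) + y * I) =
      1 / (((σ : ℂ) + y * I) * ((σ : ℂ) + y * I + 1)) := fun y =>
    (hasMellin_tent (by simp; linarith)).2
  have h := mellinInv_mellin_eq σ (fun u => (tent u : ℂ)) hu
    (hasMellin_tent (by simp; linarith)).1 ?_ (by unfold tent; fun_prop)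
  · rw [mellinInv] at h
    simp only [hval] at h
    exact h
  · show Integrable fun y : ℝ => mellin (fun u => (tent u : ℂ)) ((σ : ℂ) + y * I)
    simp only [hval]
    refine (integrable_decay.const_mul 4).mono' ?_ (Eventually.of_forall fun y => ?_)
    · exact (Measurable.aestronglyMeasurable (by fun_prop))
    · rw [norm_div, norm_one]
      refine (norm_kernel_inv_le hσ y).trans ?_
      rw [div_eq_mul_one_div]
      exact mul_le_mul_of_nonneg_left (inv_le_decay y) (by norm_num)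

/-- The coefficients. -/
def errCoeff (n : ℕ) : ℂ := (Λ n : ℂ) - 1

theorem errLog_eq_LSeries {s : ℂ} (hs : 1 < s.re) :
    LSeriesSummable errCoeff s ∧ LSeries errCoeff s = errLog s := by
  have h1 := ArithmeticFunction.LSeriesSummable_vonMangoldt hs
  have h2 := LSeriesSummable_one_iff.2 hs
  have he : errCoeff = (fun n => (Λ n : ℂ)) - 1 := rfl
  rw [he]
  refine ⟨h1.sub h2, ?_⟩
  rw [LSeries_sub h1 h2, ArithmeticFunction.LSeries_vonMangoldt_eq_deriv_riemannZeta_div hs,
    LSeries_one_eq_riemannZeta hs, errLog_eq (fun h => by rw [h] at hs; simp at hs)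
      (riemannZeta_ne_zero_of_one_lt_re hs)]

/-- The integrand of the inversion. -/
def shiftFn (x : ℝ) (s : ℂ) : ℂ := (x : ℂ) ^ s * errLog s / (s * (s + 1))

/-- The smoothed sum. -/
def smoothErr (x : ℝ) : ℝ := ∑ n ∈ Finset.Icc 1 ⌊x⌋₊, (Λ n - 1) * (1 - n / x)

/-- **The Perron formula.** -/
theorem smoothErr_eq {x σ : ℝ} (hx : 0 < x) (hσ : 1 < σ) :
    (smoothErr x : ℂ) = (1 / (2 * π)) • ∫ y : ℝ, shiftFn x ((σ : ℂ) + y * I) := by
  obtain ⟨F, hF⟩ : ∃ F : ℕ → ℝ → ℂ, F = fun n (y : ℝ) => LSeries.term errCoeff ((σ : ℂ) + y * I) n *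
      ((x : ℂ) ^ ((σ : ℂ) + y * I) * (1 / (((σ : ℂ) + y * I) * ((σ : ℂ) + y * I + 1)))) :=
    ⟨_, rfl⟩
  have hre : ∀ y : ℝ, 1 < ((σ : ℂ) + y * I).re := fun y => by simpa using hσ
  have hnorm : ∀ n y, ‖F n y‖ ≤ ‖LSeries.term errCoeff (σ : ℂ) n‖ * (x ^ σ * (4 * decay y)) := by
    intro n y
    rw [hF, norm_mul]
    refine mul_le_mul (le_of_eq ?_) ?_ (norm_nonneg _) (norm_nonneg _)
    · rw [LSeries.norm_term_eq, LSeries.norm_term_eq]
      simp
    · rw [norm_mul, norm_div, norm_one, norm_cpow_eq_rpow_re_of_pos hx]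
      simp only [add_re, ofReal_re, mul_re, I_re, mul_zero, ofReal_im, I_im, mul_one, sub_self,
        add_zero]
      refine mul_le_mul_of_nonneg_left ((norm_kernel_inv_le (by linarith) y).trans ?_)
        (Real.rpow_nonneg hx.le _)
      rw [div_eq_mul_one_div]
      exact mul_le_mul_of_nonneg_left (inv_le_decay y) (by norm_num)
  have hmeas : ∀ n, AEStronglyMeasurable (F n) volume := fun n => by
    rw [hF]
    rcases eq_or_ne n 0 with rfl | hn
    · simp
      exact aestronglyMeasurable_const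
    · simp only [LSeries.term_of_ne_zero hn]
      exact Measurable.aestronglyMeasurable (by fun_prop)
  have hint : ∀ n, Integrable (F n) := fun n =>
    (((integrable_decay.const_mul 4).const_mul (x ^ σ)).const_mul _).mono' (hmeas n)
      (Eventually.of_forall (hnorm n))
  have hsum : Summable fun n => ∫ y, ‖F n y‖ := by
    refine Summable.of_nonneg_of_le (fun n => integral_nonneg fun y => norm_nonneg _) (fun n => ?_)
      (((errLog_eq_LSeries (s := (σ : ℂ)) (by simpa using hσ)).1.norm).mul_right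
        (x ^ σ * (4 * ∫ y, decay y)))
    refine (integral_mono (hint n).norm
      (((integrable_decay.const_mul 4).const_mul (x ^ σ)).const_mul _) (hnorm n)).trans
      (le_of_eq ?_)
    rw [integral_const_mul, integral_const_mul, integral_const_mul]
  have hterm : ∀ n, (1 / (2 * π)) • ∫ y, F n y =
      if n = 0 then 0 else errCoeff n * (tent (n / x) : ℂ) := by
    intro n
    rw [hF]
    rcases eq_or_ne n 0 with rfl | hn
    · simp
    · have hn0 : (0 : ℝ) < n := Nat.cast_pos.2 (Nat.pos_of_ne_zero hn)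
      rw [if_neg hn, ← tent_inversion (σ := σ) (by linarith) (div_pos hn0 hx),
        mul_smul_comm, ← integral_const_mul]
      congr 2
      funext y
      simp only
      rw [LSeries.term_of_ne_zero hn, smul_eq_mul, Complex.ofReal_div,
        div_cpow_ofReal_nonneg' hn0 hx,
        cpow_neg, cpow_neg, Complex.ofReal_natCast]
      field_simp
  have hswap := integral_tsum_of_summable_integral_norm hint hsum
  have hfun : (fun y => ∑' n, F n y) = fun y : ℝ => shiftFn x ((σ : ℂ) + y * I) := by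
    funext y
    rw [hF, tsum_mul_right, shiftFn, ← (errLog_eq_LSeries (hre y)).2, LSeries]
    ring
  rw [← hfun, ← hswap, ← tsum_const_smul'', tsum_congr hterm,
    tsum_eq_sum (s := Finset.Icc 1 ⌊x⌋₊) fun n hn => ?_, smoothErr, Complex.ofReal_sum]
  · refine Finset.sum_congr rfl fun n hn => ?_
    rw [Finset.mem_Icc] at hn
    have : (n : ℝ) ≤ x := (Nat.cast_le.2 hn.2).trans (Nat.floor_le hx.le)
    rw [if_neg (by omega), tent, max_eq_left (by rw [sub_nonneg, div_le_one hx]; exact this),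
      errCoeff]
    push_cast
    rfl
  · rw [Finset.mem_Icc] at hn
    rcases eq_or_ne n 0 with rfl | h0
    · simp
    · have : x < n := Nat.lt_of_floor_lt (by omega)
      rw [if_neg h0, tent, max_eq_right (by rw [sub_nonpos, one_le_div hx]; exact this.le)]
      simp
where
  div_cpow_ofReal_nonneg' {a b : ℝ} (ha : 0 < a) (hb : 0 < b) {s : ℂ} :
      ((a : ℂ) / (b : ℂ)) ^ s = (a : ℂ) ^ s / (b : ℂ) ^ s := by
    rw [← Complex.ofReal_div, cpow_def_of_ne_zero (by exact_mod_cast (div_pos ha hb).ne'),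
      cpow_def_of_ne_zero (by exact_mod_cast ha.ne'),
      cpow_def_of_ne_zero (by exact_mod_cast hb.ne'), ← Complex.exp_sub, ← sub_mul,
      ← Complex.ofReal_log (div_pos ha hb).le, ← Complex.ofReal_log ha.le,
      ← Complex.ofReal_log hb.le, Real.log_div ha.ne' hb.ne']
    push_cast
    rfl

theorem ell_pow_le : ∃ K, 1 ≤ K ∧ ∀ y : ℝ, ell y ^ 9 ≤ K * (1 + y ^ 2) ^ (1 / 4 : ℝ) := by
  refine ⟨max 1 ((36 : ℝ) ^ 9 * 101 ^ (1 / 2 : ℝ) * 2), le_max_left _ _, fun y => ?_⟩
  obtain ⟨w, hw⟩ : ∃ w, w = |y| + 100 := ⟨_, rfl⟩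
  have hw0 : 0 < w := by rw [hw]; positivity
  have h1 : ell y ≤ w ^ (1 / 18 : ℝ) / (1 / 18) := hw ▸ Real.log_le_rpow_div (by positivity)
    (by norm_num)
  have h2 := pow_le_pow_left₀ (ell_pos y).le h1 9
  have e : (w ^ (1 / 18 : ℝ)) ^ 9 = w ^ (1 / 2 : ℝ) := by
    rw [← Real.rpow_natCast, ← Real.rpow_mul hw0.le]
    norm_num
  rw [div_pow, e] at h2
  have h3 : w ≤ 101 * (2 * (1 + y ^ 2) ^ (1 / 2 : ℝ)) := by
    rw [← Real.sqrt_eq_rpow, hw]
    have h4 : |y| ≤ √(1 + y ^ 2) := Real.abs_le_sqrt (by linarith)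
    have h5 : 1 ≤ √(1 + y ^ 2) := Real.one_le_sqrt.2 (by nlinarith [sq_nonneg y])
    linarith
  have h6 : w ^ (1 / 2 : ℝ) ≤ (101 : ℝ) ^ (1 / 2 : ℝ) * (2 * (1 + y ^ 2) ^ (1 / 4 : ℝ)) := by
    refine (Real.rpow_le_rpow hw0.le h3 (by norm_num)).trans ?_
    rw [Real.mul_rpow (by norm_num) (by positivity), Real.mul_rpow (by norm_num) (by positivity),
      ← Real.rpow_mul (by positivity)]
    rw [show (1 / 2 : ℝ) * (1 / 2) = 1 / 4 by norm_num]
    gcongr
    exact Real.rpow_le_self_of_one_le one_le_two (by norm_num)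
  refine h2.trans ?_
  refine le_trans ?_ (mul_le_mul_of_nonneg_right (le_max_right _ _) (by positivity))
  rw [div_le_iff₀ (by norm_num)]
  refine h6.trans ?_
  have h7 : 0 ≤ (101 : ℝ) ^ (1 / 2 : ℝ) * (1 + y ^ 2) ^ (1 / 4 : ℝ) := by positivity
  nlinarith

/-- The bound for the integrand in the region. -/
theorem exists_shiftFn_le : ∃ a C, 0 < a ∧ a ≤ 1 ∧ 0 ≤ C ∧ ∀ x : ℝ, 0 < x → ∀ σ y : ℝ,
    1 - a / ell y ^ 9 ≤ σ → σ ≤ 2 →
      DifferentiableAt ℂ (shiftFn x) ((σ : ℂ) + y * I) ∧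
        ‖shiftFn x ((σ : ℂ) + y * I)‖ ≤ C * x ^ σ * decay y := by
  obtain ⟨a, C, ha, ha1, hC, h⟩ := exists_region
  obtain ⟨K, hK1, hK⟩ := ell_pow_le
  refine ⟨a, 4 * C * K, ha, ha1, by positivity, fun x hx σ y h1 h2 => ?_⟩
  have hσ : 1 / 2 ≤ σ := by
    have h3 : a / ell y ^ 9 ≤ 1 / 4 := by
      refine (div_le_div_of_nonneg_right ha1 (pow_nonneg (ell_pos y).le _)).trans
        (one_div_le_one_div_of_le (by norm_num) ?_)
      exact (four_le_ell y).trans (le_self_pow₀ (by linarith [four_le_ell y]) (by norm_num))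
    linarith
  obtain ⟨hz, hb⟩ := h ((σ : ℂ) + y * I) (by simpa using h1) (by simpa using h2)
  simp only [add_im, ofReal_im, mul_im, ofReal_re, I_im, I_re, mul_zero, mul_one, zero_add,
    add_zero] at hb
  have hs0 : (σ : ℂ) + y * I ≠ 0 := fun h => by
    have := congrArg Complex.re h
    simp at this
    linarith
  have hs1 : (σ : ℂ) + y * I + 1 ≠ 0 := fun h => by
    have := congrArg Complex.re h
    simp at this
    linarith
  refine ⟨((differentiableAt_id.const_cpow (Or.inl (Complex.ofReal_ne_zero.2 hx.ne'))).mul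
    (differentiableAt_errLog hz)).div (by fun_prop) (mul_ne_zero hs0 hs1), ?_⟩
  rw [shiftFn, norm_div, norm_mul, norm_cpow_eq_rpow_re_of_pos hx]
  simp only [add_re, ofReal_re, mul_re, I_re, mul_zero, ofReal_im, I_im, mul_one, sub_self,
    add_zero]
  rw [div_eq_mul_one_div]
  have e : (1 + y ^ 2) ^ (1 / 4 : ℝ) * (1 / (1 + y ^ 2)) = decay y := by
    rw [decay, one_div (1 + y ^ 2), ← Real.rpow_neg_one, ← Real.rpow_add (by positivity)]
    norm_num
  calc x ^ σ * ‖errLog ((σ : ℂ) + y * I)‖ *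
        (1 / ‖((σ : ℂ) + y * I) * ((σ : ℂ) + y * I + 1)‖)
      ≤ x ^ σ * (C * (K * (1 + y ^ 2) ^ (1 / 4 : ℝ))) * (4 / (1 + y ^ 2)) := by
        refine mul_le_mul ?_ (norm_kernel_inv_le hσ y) (by positivity) (by positivity)
        exact mul_le_mul_of_nonneg_left (hb.trans (mul_le_mul_of_nonneg_left (hK y) hC))
          (Real.rpow_nonneg hx.le _)
    _ = 4 * C * K * x ^ σ * ((1 + y ^ 2) ^ (1 / 4 : ℝ) * (1 / (1 + y ^ 2))) := by ring
    _ = _ := by rw [e]

theorem decay_le {y : ℝ} (hy : 0 < y) : decay y ≤ y ^ (-(3 / 2) : ℝ) := by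
  rw [show (-(3 / 2) : ℝ) = (2 : ℕ) * (-(3 / 4)) by norm_num, Real.rpow_mul hy.le,
    Real.rpow_natCast]
  exact Real.rpow_le_rpow_of_nonpos (by positivity) (by linarith) (by norm_num)

/-- **The bound for the smoothed sum.** -/
theorem exists_smoothErr_le : ∃ a C, 0 < a ∧ a ≤ 1 ∧ 0 ≤ C ∧ ∀ x T : ℝ, 3 ≤ x → 1 ≤ T →
    |smoothErr x| ≤ C * x * (x ^ (-(a / ell T ^ 9)) + T ^ (-(1 / 2) : ℝ)) := by
  obtain ⟨a, C, ha, ha1, hC, hb⟩ := exists_shiftFn_le
  obtain ⟨J, hJ⟩ : ∃ J, J = ∫ y, decay y := ⟨_, rfl⟩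
  have hJ0 : 0 ≤ J := hJ ▸ integral_nonneg fun y => (decay_pos y).le
  refine ⟨a, C * (J + 3 * 8), ha, ha1, by positivity, fun x T hx hT => ?_⟩
  have hx0 : 0 < x := by linarith
  have hlog : 1 ≤ Real.log x := by
    rw [Real.le_log_iff_exp_le hx0]
    linarith [Real.exp_one_lt_three]
  obtain ⟨σ₂, hσ₂⟩ : ∃ σ₂, σ₂ = 1 + 1 / Real.log x := ⟨_, rfl⟩
  have h12 : 1 < σ₂ := by
    rw [hσ₂]
    have : 0 < 1 / Real.log x := by positivity
    linarith
  have h22 : σ₂ ≤ 2 := by
    rw [hσ₂]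
    have : 1 / Real.log x ≤ 1 := (div_le_one (by linarith)).2 hlog
    linarith
  have hxσ₂ : x ^ σ₂ ≤ 3 * x := by
    rw [hσ₂, Real.rpow_add hx0, Real.rpow_one, mul_comm]
    refine mul_le_mul_of_nonneg_right (le_of_eq_of_le ?_ Real.exp_one_lt_three.le) hx0.le
    rw [Real.rpow_def_of_pos hx0, mul_one_div_cancel (by linarith)]
  obtain ⟨σ₁, hσ₁⟩ : ∃ σ₁, σ₁ = 1 - a / ell T ^ 9 := ⟨_, rfl⟩
  have hq : 0 < a / ell T ^ 9 := div_pos ha (pow_pos (ell_pos T) 9)
  have h11 : σ₁ ≤ 1 := by linarith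
  have hinreg : ∀ σ y : ℝ, |y| ≤ T → σ₁ ≤ σ → 1 - a / ell y ^ 9 ≤ σ := by
    intro σ y hy hσ
    have h3 : a / ell T ^ 9 ≤ a / ell y ^ 9 := div_le_div_of_nonneg_left ha.le
      (pow_pos (ell_pos y) 9) (pow_le_pow_left₀ (ell_pos y).le
        (ell_mono (by rwa [abs_of_pos (by linarith : (0 : ℝ) < T)])) 9)
    linarith
  have hright : ∀ y : ℝ, 1 - a / ell y ^ 9 ≤ σ₂ := fun y => by
    have : 0 < a / ell y ^ 9 := div_pos ha (pow_pos (ell_pos y) 9)
    linarith
  obtain ⟨f, hf⟩ : ∃ f : ℝ → ℂ, f = fun y : ℝ => shiftFn x ((σ₂ : ℂ) + y * I) := ⟨_, rfl⟩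
  have hfc : Continuous f := by
    refine hf ▸ continuous_iff_continuousAt.2 fun y => ?_
    exact ContinuousAt.comp' (g := shiftFn x) ((hb x hx0 σ₂ y (hright y) h22).1.continuousAt)
      (by fun_prop)
  have hfb : ∀ y, ‖f y‖ ≤ C * (3 * x) * decay y := fun y => by
    rw [hf]
    refine ((hb x hx0 σ₂ y (hright y) h22).2).trans ?_
    gcongr
    exact (decay_pos y).le
  have hfi : Integrable f := (integrable_decay.const_mul (C * (3 * x))).mono'
    hfc.aestronglyMeasurable (Eventually.of_forall hfb)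
  have hcompl : (Set.Icc (-T) T)ᶜ ⊆ Set.Iio (-T) ∪ Set.Ioi T := by
    intro y hy
    simp only [Set.mem_compl_iff, Set.mem_Icc, not_and_or, not_le] at hy
    exact hy
  -- the tails
  have hT0 : 0 < T := by linarith
  have hdint : ∫ y in Set.Ioi T, decay y ≤ 2 * T ^ (-(1 / 2) : ℝ) := by
    refine (setIntegral_mono_on integrable_decay.integrableOn
      (integrableOn_Ioi_rpow_of_lt (by norm_num : (-(3 / 2) : ℝ) < -1) hT0) measurableSet_Ioi
      fun y hy => decay_le (hT0.trans hy)).trans (le_of_eq ?_)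
    rw [integral_Ioi_rpow_of_lt (by norm_num) hT0]
    norm_num
    ring
  have hdneg : ∫ y in Set.Iio (-T), decay y = ∫ y in Set.Ioi T, decay y := by
    rw [← integral_Iic_eq_integral_Iio, ← integral_comp_neg_Ioi]
    simp [decay]
  have htail : ‖(∫ y, f y) - ∫ y in (-T)..T, f y‖ ≤ C * (3 * x) * (4 * T ^ (-(1 / 2) : ℝ)) := by
    rw [intervalIntegral.integral_of_le (by linarith), ← integral_Icc_eq_integral_Ioc,
      ← integral_add_compl (s := Set.Icc (-T) T) measurableSet_Icc hfi, add_sub_cancel_left]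
    refine (norm_integral_le_of_norm_le (integrable_decay.const_mul _).integrableOn
      (Eventually.of_forall hfb)).trans ?_
    rw [integral_const_mul]
    refine mul_le_mul_of_nonneg_left ?_ (by positivity)
    refine (setIntegral_mono_set integrable_decay.integrableOn
      (Eventually.of_forall fun y => (decay_pos y).le) hcompl.eventuallyLE).trans ?_
    rw [setIntegral_union (Set.disjoint_left.2 fun y h1 h2 => by
        simp only [Set.mem_Iio] at h1
        simp only [Set.mem_Ioi] at h2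
        linarith) measurableSet_Ioi integrable_decay.integrableOn integrable_decay.integrableOn,
      hdneg]
    linarith
  -- the rectangle
  have hrect := Complex.integral_boundary_rect_eq_zero_of_differentiableOn (shiftFn x)
    ((σ₁ : ℂ) + ((-T : ℝ) : ℂ) * I) ((σ₂ : ℂ) + (T : ℂ) * I) (fun s hs => by
      rw [Complex.mem_reProdIm] at hs
      simp only [add_re, ofReal_re, mul_re, I_re, mul_zero, ofReal_im, I_im, mul_one, sub_self,
        add_zero, add_im, mul_im, zero_add, Set.uIcc_of_le (h11.trans h12.le),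
        Set.uIcc_of_le (show -T ≤ T by linarith)] at hs
      have := (hb x hx0 s.re s.im (hinreg _ _ (abs_le.2 hs.2) hs.1.1) (hs.1.2.trans h22)).1
      rw [Complex.re_add_im] at this
      exact this.differentiableWithinAt)
  simp only [add_re, ofReal_re, mul_re, I_re, mul_zero, ofReal_im, I_im, mul_one, sub_self,
    add_zero, add_im, mul_im, zero_add] at hrect
  obtain ⟨P, hP⟩ : ∃ P : ℝ → ℂ, P = fun v : ℝ =>
      ∫ u in σ₁..σ₂, shiftFn x ((u : ℂ) + (v : ℂ) * I) := ⟨_, rfl⟩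
  obtain ⟨Q, hQ⟩ : ∃ Q : ℂ, Q = ∫ y in (-T)..T, shiftFn x ((σ₁ : ℂ) + y * I) := ⟨_, rfl⟩
  have hcentral : ‖Q‖ ≤ C * x ^ σ₁ * J := by
    rw [hQ]
    refine (intervalIntegral.norm_integral_le_of_norm_le (by linarith)
      (Eventually.of_forall fun y hy => (hb x hx0 σ₁ y (hinreg σ₁ y ?_ le_rfl)
        (by linarith)).2) (integrable_decay.const_mul _).intervalIntegrable).trans ?_
    · exact abs_le.2 ⟨hy.1.le, hy.2⟩
    · rw [intervalIntegral.integral_const_mul, intervalIntegral.integral_of_le (by linarith), hJ]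
      refine mul_le_mul_of_nonneg_left (setIntegral_le_integral integrable_decay
        (Eventually.of_forall fun y => (decay_pos y).le)) (by positivity)
  have hhor : ∀ v : ℝ, |v| = T → ‖P v‖ ≤ C * (3 * x) * T ^ (-(1 / 2) : ℝ) * 2 := by
    intro v hv
    rw [hP]
    refine (intervalIntegral.norm_integral_le_of_norm_le_const
      (C := C * (3 * x) * decay T) fun u hu => ?_).trans ?_
    · rw [Set.uIoc_of_le (h11.trans h12.le)] at hu
      refine (hb x hx0 u v (hinreg u v hv.le hu.1.le) (hu.2.trans h22)).2.trans (le_of_eq_of_le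
        (?_ : _ = C * x ^ u * decay T) ?_)
      · rw [show decay v = decay T by unfold decay; rw [← sq_abs v, hv]]
      · gcongr
        · exact (decay_pos T).le
        · exact (Real.rpow_le_rpow_of_exponent_le (by linarith) hu.2).trans hxσ₂
    · have hσ12 : |σ₂ - σ₁| ≤ 2 := by
        have h9 : a / ell T ^ 9 ≤ 1 := (div_le_one (pow_pos (ell_pos T) 9)).2
          (ha1.trans (one_le_pow₀ (by linarith [four_le_ell T])))
        rw [abs_le]
        constructor <;> linarith
      refine mul_le_mul (mul_le_mul_of_nonneg_left ((decay_le hT0).trans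
        (Real.rpow_le_rpow_of_exponent_le hT (by norm_num))) (by positivity)) hσ12 (abs_nonneg _)
        (by positivity)
  have hmid : ‖∫ y in (-T)..T, f y‖ ≤
      C * x ^ σ₁ * J + C * (3 * x) * T ^ (-(1 / 2) : ℝ) * 4 := by
    have e : I * (∫ y in (-T)..T, f y) = I * Q + P T - P (-T) := by
      rw [hf, hQ, hP]
      simp only [smul_eq_mul] at hrect
      linear_combination hrect
    have := congrArg (fun z : ℂ => ‖z‖) e
    simp only [norm_mul, Complex.norm_I, one_mul] at this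
    rw [this]
    refine (norm_sub_le _ _).trans ((add_le_add (norm_add_le _ _) le_rfl).trans ?_)
    rw [norm_mul, Complex.norm_I, one_mul]
    linarith [hhor T (abs_of_pos hT0), hhor (-T) (by rw [abs_neg, abs_of_pos hT0]), hcentral]
  have htotal : ‖∫ y, f y‖ ≤ C * x ^ σ₁ * J + C * (3 * x) * T ^ (-(1 / 2) : ℝ) * 8 := by
    have := norm_le_norm_add_norm_sub' (∫ y, f y) (∫ y in (-T)..T, f y)
    linarith
  have hs := smoothErr_eq hx0 h12
  rw [← Real.norm_eq_abs, ← Complex.norm_real, hs, norm_smul, Real.norm_eq_abs,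
    abs_of_pos (by positivity)]
  have hpi : 1 / (2 * π) ≤ 1 := by
    rw [div_le_one (by positivity)]
    linarith [Real.two_le_pi]
  refine (mul_le_of_le_one_left (norm_nonneg _) hpi).trans ?_
  rw [hf] at htotal
  refine htotal.trans ?_
  rw [hσ₁, sub_eq_add_neg, Real.rpow_add hx0, Real.rpow_one]
  have p1 : 0 ≤ C * x * T ^ (-(1 / 2) : ℝ) * J := by positivity
  have p2 : 0 ≤ C * x * x ^ (-(a / ell T ^ 9)) * 24 := by positivity
  linarith

end FA.ZeroFree
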